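import Fermat.Agent.LT.T6.H288.IndexSpec

/-!
# Row LT, tower T6, sub-leaf T6.12g.2 `ReprCardC` (helper272)

OFF-MAIN.  Counting with a full system of representatives `B` of `k / 𝒪`: for an additive
subgroup `A ⊇ 𝒪` of finite index over `𝒪`, the representatives lying in `A` are in bijection
with `A / 𝒪`.
-/

set_option autoImplicit false

noncomputable section

namespace Fermat.Agent.LT.T6.H272

open Fermat.Agent.LT.T6 Fermat.Agent.LT.T6.H288

variable {k : Type} [Field k] [Valued k Γ₀]

/-- The class map from the representatives in `A` to `A / 𝒪`. -/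
def reprClass272 (B : Set k) (A : AddSubgroup k) :
    {b : k | b ∈ B ∧ b ∈ A} → (A ⧸ (ball k 0).addSubgroupOf A) :=
  fun b => QuotientAddGroup.mk (⟨b.1, b.2.2⟩ : A)

theorem mem_ball272 (n : ℤ) (x : k) : x ∈ ball k n ↔ Valued.v x ≤ WithZero.exp n := Iff.rfl

theorem reprClass_injective272 (B : Set k) (hB : IsReprSet B) (A : AddSubgroup k) :
    Function.Injective (reprClass272 B A) := by
  rintro ⟨b, hbB, hbA⟩ ⟨b', hb'B, hb'A⟩ h
  have h1 : (-(⟨b, hbA⟩ : A) + ⟨b', hb'A⟩) ∈ (ball k 0).addSubgroupOf A :=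
    QuotientAddGroup.eq.mp h
  rw [AddSubgroup.mem_addSubgroupOf] at h1
  have h2 : Valued.v (b - b') ≤ 1 := by
    have h3 : Valued.v (-b + b') ≤ WithZero.exp (0 : ℤ) := h1
    have h4 : b - b' = -(-b + b') := by ring
    rw [h4, Valuation.map_neg]
    simpa using h3
  obtain ⟨c, -, hc⟩ := hB b
  have e1 : b = c := hc b ⟨hbB, by simp⟩
  have e2 : b' = c := hc b' ⟨hb'B, h2⟩
  apply Subtype.ext
  change b = b'
  rw [e1, e2]

theorem reprClass_surjective272 (B : Set k) (hB : IsReprSet B) (A : AddSubgroup k)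
    (hA : ball k 0 ≤ A) : Function.Surjective (reprClass272 B A) := by
  intro y
  induction y using QuotientAddGroup.induction_on with
  | H a =>
    obtain ⟨b, ⟨hbB, hb⟩, -⟩ := hB (a : k)
    have hab : (a : k) - b ∈ ball k 0 := by
      change Valued.v ((a : k) - b) ≤ WithZero.exp (0 : ℤ)
      simpa using hb
    have hbA : b ∈ A := by
      have h1 : b = (a : k) - ((a : k) - b) := by ring
      rw [h1]
      exact A.sub_mem a.2 (hA hab)
    refine ⟨⟨b, hbB, hbA⟩, ?_⟩
    apply QuotientAddGroup.eq.mpr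
    rw [AddSubgroup.mem_addSubgroupOf]
    change Valued.v (-b + (a : k)) ≤ WithZero.exp (0 : ℤ)
    have h2 : -b + (a : k) = (a : k) - b := by ring
    rw [h2]
    simpa using hb

/-- **T6.12g.2.** -/
theorem reprCardC272 : ReprCardC := by
  intro k _ _ B hB A hA hne
  have hcard : Nat.card {b : k | b ∈ B ∧ b ∈ A} = (ball k 0).relIndex A := by
    rw [AddSubgroup.relIndex, AddSubgroup.index]
    exact Nat.card_congr (Equiv.ofBijective (reprClass272 B A)
      ⟨reprClass_injective272 B hB A, reprClass_surjective272 B hB A hA⟩)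
  have hfin : Finite {b : k | b ∈ B ∧ b ∈ A} := by
    apply Nat.finite_of_card_ne_zero
    rw [hcard]
    exact hne
  refine ⟨Set.toFinite _, ?_⟩
  rw [← Nat.card_coe_set_eq]
  exact hcard

end Fermat.Agent.LT.T6.H272

end
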